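/-
helper19, P-CFT / block TATE, row TATE-BRm1: `Ĥ⁻¹(S, M) = 0` iff every element of `S`-norm zero
lies in `I_S M` (`Fermat.Agent.H24.BridgeHm1Statement`).
-/
import Fermat.Agent.H24.Tate.Interfaces

set_option autoImplicit false

noncomputable section

open CategoryTheory groupCohomology groupHomology

namespace Fermat.Agent.H19

section Exact

variable {k G : Type} [CommRing k] [Group G] [Fintype G] (A : Rep k G)

/-- Vanishing of `Ĥ⁻¹` is exactness of the Tate complex at `-1`. -/
theorem tate_isZero_neg_one_iff :
    Limits.IsZero (tateCohomology A (-1)) ↔ ((tateComplex A).sc' (-2) (-1) 0).Exact := by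
  rw [← HomologicalComplex.exactAt_iff' (tateComplex A) (-2) (-1) 0 (by simp) (by simp)]
  exact (HomologicalComplex.exactAt_iff_isZero_homology _ _).symm

/-- Exactness of the Tate complex at `-1` in elementary terms: the kernel of the norm is the
augmentation submodule. -/
theorem tate_exact_neg_one_iff :
    ((tateComplex A).sc' (-2) (-1) 0).Exact ↔
      ∀ a : A.V, A.ρ.norm a = 0 → a ∈ Representation.Coinvariants.ker A.ρ := by
  rw [ShortComplex.moduleCat_exact_iff]
  have hg : ∀ x : (inhomogeneousChains A).X 0,
      (cochainsIso₀ A).hom (A.tateNorm x) = A.ρ.norm ((chainsIso₀ A).hom x) := by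
    intro x
    have h : A.tateNorm ≫ (cochainsIso₀ A).hom = (chainsIso₀ A).hom ≫ A.norm.toModuleCatHom := by
      simp [Rep.tateNorm]
    have h2 := congrArg (fun f => f x) (congrArg (fun f => (ConcreteCategory.hom f)) h)
    simpa using h2
  have hf : ∀ y : (inhomogeneousChains A).X 1,
      (chainsIso₀ A).hom ((inhomogeneousChains A).d 1 0 y) = d₁₀ A ((chainsIso₁ A).hom y) := by
    intro y
    have h2 := congrArg (fun f => f y) (congrArg (fun f => (ConcreteCategory.hom f))
      (comp_d₁₀_eq A))
    simpa using h2.symm
  have hinj₀ : Function.Injective (cochainsIso₀ A).hom :=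
    (ConcreteCategory.bijective_of_isIso (cochainsIso₀ A).hom).1
  have hinj₁ : Function.Injective (chainsIso₀ A).hom :=
    (ConcreteCategory.bijective_of_isIso (chainsIso₀ A).hom).1
  constructor
  · intro h a ha
    have h0 : A.tateNorm ((chainsIso₀ A).inv a) = 0 := by
      apply hinj₀
      rw [hg, map_zero]
      simpa using ha
    obtain ⟨y, hy⟩ := h ((chainsIso₀ A).inv a) h0
    rw [← range_d₁₀_eq_coinvariantsKer]
    refine ⟨(chainsIso₁ A).hom y, ?_⟩
    have h3 := hf y
    have hy' : (inhomogeneousChains A).d 1 0 y = (chainsIso₀ A).inv a := hy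
    rw [hy'] at h3
    have h4 : (chainsIso₀ A).hom ((chainsIso₀ A).inv a) = a := by simp
    rw [h4] at h3
    exact h3.symm
  · intro h x hx
    have hx' : A.tateNorm x = 0 := hx
    have ha : A.ρ.norm ((chainsIso₀ A).hom x) = 0 := by
      rw [← hg, hx', map_zero]
    have hmem := h _ ha
    rw [← range_d₁₀_eq_coinvariantsKer] at hmem
    obtain ⟨z, hz⟩ := hmem
    refine ⟨(chainsIso₁ A).inv z, ?_⟩
    show (inhomogeneousChains A).d 1 0 ((chainsIso₁ A).inv z) = x
    apply hinj₁
    rw [hf]
    have h4 : (chainsIso₁ A).hom ((chainsIso₁ A).inv z) = z := by simp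
    rw [h4]
    exact hz

end Exact

section Elementary

theorem comp_subtype_norm_eq_normOn {k G V : Type*} [CommRing k] [Group G] [Fintype G]
    [AddCommGroup V] [Module k V] (ρ : Representation k G V) (S : Subgroup G) [Fintype S]
    (a : V) :
    Representation.norm (ρ.comp S.subtype : Representation k S V) a =
      Fermat.Agent.H24.normOn ρ S a := by
  classical
  unfold Fermat.Agent.H24.normOn Representation.norm
  rw [LinearMap.sum_apply]
  symm
  exact Finset.sum_subtype (Finset.univ.filter (fun g : G => g ∈ S))
    (fun x => by simp) (fun g => ρ g a)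

theorem comp_subtype_coinvariantsKer_iff {k G V : Type*} [CommRing k] [Group G] [Fintype G]
    [AddCommGroup V] [Module k V] (hk : Function.Surjective (Int.cast : ℤ → k))
    (ρ : Representation k G V) (S : Subgroup G) (a : V) :
    a ∈ Representation.Coinvariants.ker (ρ.comp S.subtype : Representation k S V) ↔
      a ∈ Fermat.Agent.H24.augOn ρ S := by
  unfold Fermat.Agent.H24.augOn Representation.Coinvariants.ker
  constructor
  · intro h
    induction h using Submodule.span_induction with
    | mem x hx =>
      obtain ⟨⟨s, b⟩, rfl⟩ := hx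
      exact AddSubgroup.subset_closure ⟨s.1, s.2, b, rfl⟩
    | zero => exact AddSubgroup.zero_mem _
    | add x y _ _ hx hy => exact AddSubgroup.add_mem _ hx hy
    | smul n x _ hx =>
      obtain ⟨m, rfl⟩ := hk n
      rw [Int.cast_smul_eq_zsmul]
      exact AddSubgroup.zsmul_mem _ hx m
  · intro h
    induction h using AddSubgroup.closure_induction with
    | mem x hx =>
      obtain ⟨s, hs, b, rfl⟩ := hx
      exact Submodule.subset_span ⟨(⟨s, hs⟩, b), rfl⟩
    | zero => exact Submodule.zero_mem _
    | add x y _ _ hx hy => exact Submodule.add_mem _ hx hy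
    | neg x _ hx => exact Submodule.neg_mem _ hx

end Elementary

/-- **T-BR-1** (`Fermat.Agent.H24.BridgeHm1Statement`). -/
theorem bridgeHm1 : Fermat.Agent.H24.BridgeHm1Statement := by
  intro G _ _ M S _
  rw [tate_isZero_neg_one_iff (Rep.res S.subtype M),
    tate_exact_neg_one_iff (Rep.res S.subtype M)]
  have hk : Function.Surjective (Int.cast : ℤ → ℤ) := fun n => ⟨n, rfl⟩
  letI := M.hV2
  constructor
  · intro h a ha
    refine (comp_subtype_coinvariantsKer_iff hk M.ρ S a).mp ?_
    apply h
    exact (comp_subtype_norm_eq_normOn M.ρ S a).trans ha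
  · intro h a ha
    refine (comp_subtype_coinvariantsKer_iff hk M.ρ S a).mpr ?_
    apply h
    exact (comp_subtype_norm_eq_normOn M.ρ S a).symm.trans ha

end Fermat.Agent.H19

end
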